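import Mathlib
import Fermat.Prelude.Def_GaloisRep_Adic

set_option autoImplicit false

noncomputable section

namespace Fermat.Agent.Lib.Helper6

open scoped TensorProduct

abbrev GalQ := AlgebraicClosure ℚ ≃ₐ[ℚ] AlgebraicClosure ℚ

section Basic

variable {A : Type} [CommRing A]

theorem mem_smul_top_pi (I : Ideal A) (v : Fin 2 → A) :
    v ∈ I • (⊤ : Submodule A (Fin 2 → A)) ↔ ∀ i, v i ∈ I := by
  constructor
  · intro hv
    refine Submodule.smul_induction_on hv ?_ ?_
    · intro a ha w _ i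
      exact I.mul_mem_right _ ha
    · intro x y hx hy i
      exact I.add_mem (hx i) (hy i)
  · intro hv
    have : v = ∑ i, v i • (Pi.single i (1 : A) : Fin 2 → A) := by
      ext j
      simp [Finset.sum_apply, Pi.single_apply]
    rw [this]
    exact Submodule.sum_mem _ fun i _ => Submodule.smul_mem_smul (hv i) Submodule.mem_top

theorem repr_mem_of_mem_smul_top {V : Type} [AddCommGroup V] [Module A V] (I : Ideal A)
    (b : Module.Basis (Fin 2) A V) {w : V} (hw : w ∈ I • (⊤ : Submodule A V)) (i : Fin 2) :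
    b.repr w i ∈ I := by
  refine Submodule.smul_induction_on hw ?_ ?_
  · intro a ha w _
    rw [map_smul, Finsupp.smul_apply, smul_eq_mul]
    exact I.mul_mem_right _ ha
  · intro x y hx hy
    rw [map_add, Finsupp.add_apply]
    exact I.add_mem hx hy

variable [IsLocalRing A]

/-- adic continuity for matrix-valued maps on the Galois group -/
def MatCont (r : GalQ → Matrix (Fin 2) (Fin 2) A) : Prop :=
  ∀ n : ℕ, ∃ L : IntermediateField ℚ (AlgebraicClosure ℚ), FiniteDimensional ℚ L ∧
    ∀ σ : GalQ, (∀ x ∈ L, σ x = x) →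
      ∀ i j, (r σ - 1) i j ∈ IsLocalRing.maximalIdeal A ^ n

/-- matrices acting on column vectors, as a monoid hom -/
def mulVecHom : Matrix (Fin 2) (Fin 2) A →* Module.End A (Fin 2 → A) :=
  (Matrix.toLinAlgEquiv' : Matrix (Fin 2) (Fin 2) A ≃ₐ[A] _).toAlgHom.toMonoidHom

omit [IsLocalRing A] in
theorem mulVecHom_apply (M : Matrix (Fin 2) (Fin 2) A) (v : Fin 2 → A) :
    mulVecHom M v = M.mulVec v := rfl

/-- the Galois representation attached to a continuous matrix representation -/
def ofMatrixRep (r : GalQ →* Matrix (Fin 2) (Fin 2) A) (hr : MatCont r) : GaloisRepAdic A where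
  V := Fin 2 → A
  finrank_eq := by simp
  ρ := mulVecHom.comp r
  isAdicContinuous := by
    intro n
    obtain ⟨L, hL, h⟩ := hr n
    refine ⟨L, hL, fun σ hσ v => ?_⟩
    rw [mem_smul_top_pi]
    intro i
    have h1 : (mulVecHom.comp r) σ v - v = (r σ - 1).mulVec v := by
      rw [MonoidHom.comp_apply, mulVecHom_apply, Matrix.sub_mulVec, Matrix.one_mulVec]
    rw [h1]
    show ∑ j, (r σ - 1) i j * v j ∈ _
    exact Ideal.sum_mem _ fun j _ => Ideal.mul_mem_right _ _ (h σ hσ i j)

theorem ofMatrixRep_apply (r : GalQ →* Matrix (Fin 2) (Fin 2) A) (hr : MatCont r) (σ : GalQ)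
    (v : Fin 2 → A) : (ofMatrixRep r hr).ρ σ v = (r σ).mulVec v := rfl

/-- the matrix representation of a Galois representation in a basis -/
def matrixRepOfBasis (ρ : GaloisRepAdic A) (b : Module.Basis (Fin 2) A ρ.V) :
    GalQ →* Matrix (Fin 2) (Fin 2) A :=
  (LinearMap.toMatrixAlgEquiv b).toAlgHom.toMonoidHom.comp ρ.ρ

theorem matrixRepOfBasis_apply (ρ : GaloisRepAdic A) (b : Module.Basis (Fin 2) A ρ.V) (σ : GalQ)
    (i j : Fin 2) : matrixRepOfBasis ρ b σ i j = b.repr (ρ.ρ σ (b j)) i := by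
  show LinearMap.toMatrixAlgEquiv b (ρ.ρ σ) i j = _
  rw [LinearMap.toMatrixAlgEquiv_apply]

theorem matCont_matrixRepOfBasis (ρ : GaloisRepAdic A) (b : Module.Basis (Fin 2) A ρ.V) :
    MatCont (matrixRepOfBasis ρ b) := by
  intro n
  obtain ⟨L, hL, h⟩ := ρ.isAdicContinuous n
  refine ⟨L, hL, fun σ hσ i j => ?_⟩
  have h1 : (matrixRepOfBasis ρ b σ - 1) i j = b.repr (ρ.ρ σ (b j) - b j) i := by
    rw [Matrix.sub_apply, matrixRepOfBasis_apply, map_sub, Finsupp.sub_apply,
      Module.Basis.repr_self, Matrix.one_apply, Finsupp.single_apply]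
    congr 1
    simp only [eq_comm]
  rw [h1]
  exact repr_mem_of_mem_smul_top _ b (h σ hσ (b j)) i

/-- a Galois representation is equivalent to the matrix representation in any basis -/
def equivOfBasis (ρ : GaloisRepAdic A) (b : Module.Basis (Fin 2) A ρ.V) :
    GaloisRepAdic.Equiv (ofMatrixRep (matrixRepOfBasis ρ b) (matCont_matrixRepOfBasis ρ b)) ρ where
  toLinearEquiv := b.equivFun.symm
  map_apply := by
    intro σ x
    change b.equivFun.symm ((matrixRepOfBasis ρ b σ).mulVec (x : Fin 2 → A)) =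
      ρ.ρ σ (b.equivFun.symm (x : Fin 2 → A))
    generalize (x : Fin 2 → A) = y
    apply b.equivFun.injective
    rw [LinearEquiv.apply_symm_apply]
    have := LinearMap.toMatrix_mulVec_repr b b (ρ.ρ σ) (b.equivFun.symm y)
    rw [Module.Basis.equivFun_apply, ← this]
    congr 1
    exact (b.equivFun.apply_symm_apply y).symm

theorem exists_basis (ρ : GaloisRepAdic A) : Nonempty (Module.Basis (Fin 2) A ρ.V) := by
  have h := ρ.finrank_eq
  have b := Module.finBasisOfFinrankEq A ρ.V h
  exact ⟨b⟩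

/-- equivalence of matrix representations is conjugacy -/
theorem isEquiv_ofMatrixRep_iff (r r' : GalQ →* Matrix (Fin 2) (Fin 2) A) (hr : MatCont r)
    (hr' : MatCont r') :
    (ofMatrixRep r hr).IsEquiv (ofMatrixRep r' hr') ↔
      ∃ g : (Matrix (Fin 2) (Fin 2) A)ˣ, ∀ σ, (g : Matrix (Fin 2) (Fin 2) A) * r σ = r' σ * g := by
  constructor
  · rintro ⟨e⟩
    let e' : (Fin 2 → A) ≃ₗ[A] (Fin 2 → A) := e.toLinearEquiv
    have he' : ∀ σ (x : Fin 2 → A), e' ((r σ).mulVec x) = (r' σ).mulVec (e' x) := e.map_apply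
    let u : (Module.End A (Fin 2 → A))ˣ := LinearMap.GeneralLinearGroup.ofLinearEquiv e'
    let g : (Matrix (Fin 2) (Fin 2) A)ˣ :=
      Units.map (Matrix.toLinAlgEquiv'.symm :
        Module.End A (Fin 2 → A) ≃ₐ[A] Matrix (Fin 2) (Fin 2) A).toAlgHom.toMonoidHom u
    refine ⟨g, fun σ => ?_⟩
    apply (Matrix.toLinAlgEquiv' : Matrix (Fin 2) (Fin 2) A ≃ₐ[A] _).injective
    rw [map_mul, map_mul]
    have hg : (Matrix.toLinAlgEquiv' : Matrix (Fin 2) (Fin 2) A ≃ₐ[A] _) (g : Matrix _ _ A) =
        e'.toLinearMap := by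
      show Matrix.toLinAlgEquiv' (Matrix.toLinAlgEquiv'.symm (u : Module.End A (Fin 2 → A))) = _
      rw [AlgEquiv.apply_symm_apply]
      rfl
    rw [hg]
    apply LinearMap.ext
    intro x
    exact he' σ x
  · rintro ⟨g, hg⟩
    let u : (Module.End A (Fin 2 → A))ˣ :=
      Units.map (Matrix.toLinAlgEquiv' :
        Matrix (Fin 2) (Fin 2) A ≃ₐ[A] Module.End A (Fin 2 → A)).toAlgHom.toMonoidHom g
    let e' : (Fin 2 → A) ≃ₗ[A] (Fin 2 → A) := LinearMap.GeneralLinearGroup.toLinearEquiv u
    have he' : ∀ x, e' x = (g : Matrix (Fin 2) (Fin 2) A).mulVec x := fun x => rfl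
    refine ⟨⟨e', fun σ x => ?_⟩⟩
    have key : ∀ y : Fin 2 → A, e' ((r σ).mulVec y) = (r' σ).mulVec (e' y) := by
      intro y
      rw [he', he', Matrix.mulVec_mulVec, Matrix.mulVec_mulVec, hg]
    exact key x

end Basic

section BaseChange

variable {A B : Type} [CommRing A] [IsLocalRing A] [CommRing B] [IsLocalRing B]

/-- entrywise image of a matrix representation -/
def mapMatrixRep (φ : A →+* B) (r : GalQ →* Matrix (Fin 2) (Fin 2) A) :
    GalQ →* Matrix (Fin 2) (Fin 2) B :=
  φ.mapMatrix.toMonoidHom.comp r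

omit [IsLocalRing A] [IsLocalRing B] in
theorem mapMatrixRep_apply (φ : A →+* B) (r : GalQ →* Matrix (Fin 2) (Fin 2) A) (σ : GalQ)
    (i j : Fin 2) : mapMatrixRep φ r σ i j = φ (r σ i j) := rfl

theorem map_maximalIdeal_pow_le (φ : A →+* B) (hφ : IsLocalHom φ) (n : ℕ) {a : A}
    (ha : a ∈ IsLocalRing.maximalIdeal A ^ n) : φ a ∈ IsLocalRing.maximalIdeal B ^ n := by
  have hmap : (IsLocalRing.maximalIdeal A ^ n).map φ ≤ IsLocalRing.maximalIdeal B ^ n := by
    rw [Ideal.map_pow]
    exact Ideal.pow_right_mono (Ideal.map_le_iff_le_comap.mpr fun a ha =>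
      Ideal.mem_comap.mpr (haveI := hφ; map_nonunit φ a ha)) n
  exact hmap (Ideal.mem_map_of_mem φ ha)

theorem matCont_mapMatrixRep (φ : A →+* B) (hφ : IsLocalHom φ)
    {r : GalQ →* Matrix (Fin 2) (Fin 2) A} (hr : MatCont r) : MatCont (mapMatrixRep φ r) := by
  intro n
  obtain ⟨L, hL, h⟩ := hr n
  refine ⟨L, hL, fun σ hσ i j => ?_⟩
  have h1 : (mapMatrixRep φ r σ - 1) i j = φ ((r σ - 1) i j) := by
    rw [Matrix.sub_apply, Matrix.sub_apply, mapMatrixRep_apply, map_sub, Matrix.one_apply,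
      Matrix.one_apply]
    split_ifs <;> simp
  rw [h1]
  exact map_maximalIdeal_pow_le φ hφ n (h σ hσ i j)

/-- base change of a matrix representation is the entrywise image -/
def baseChangeEquiv (φ : A →+* B) (hφ : IsLocalHom φ) (r : GalQ →* Matrix (Fin 2) (Fin 2) A)
    (hr : MatCont r) :
    GaloisRepAdic.Equiv ((ofMatrixRep r hr).baseChangeAlong φ hφ)
      (ofMatrixRep (mapMatrixRep φ r) (matCont_mapMatrixRep φ hφ hr)) :=
  letI : Algebra A B := φ.toAlgebra
  { toLinearEquiv := TensorProduct.piScalarRight A B B (Fin 2)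
    map_apply := by
      intro σ x
      have key : ∀ y : B ⊗[A] (Fin 2 → A),
          TensorProduct.piScalarRight A B B (Fin 2) ((mulVecHom (r σ)).baseChange B y) =
            (mapMatrixRep φ r σ).mulVec (TensorProduct.piScalarRight A B B (Fin 2) y) := by
        intro y
        induction y using TensorProduct.induction_on with
        | zero => simp
        | tmul b v =>
          rw [LinearMap.baseChange_tmul, TensorProduct.piScalarRight_apply,
            TensorProduct.piScalarRightHom_tmul, TensorProduct.piScalarRight_apply,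
            TensorProduct.piScalarRightHom_tmul]
          ext i
          simp only [mulVecHom_apply, Matrix.mulVec, dotProduct, mapMatrixRep_apply,
            Algebra.smul_def, Finset.sum_mul, map_sum, map_mul]
          refine Finset.sum_congr rfl fun j _ => ?_
          show φ (r σ i j) * φ (v j) * b = φ (r σ i j) * (φ (v j) * b)
          ring
        | add y z hy hz => rw [map_add, map_add, hy, hz, map_add, Matrix.mulVec_add]
      exact key x }

end BaseChange

section Residual

variable {k : Type} [Field k] {A : Type} [CommRing A] [IsLocalRing A]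

/-- the matrix representation of a residual representation in a basis -/
def resMatrixRep (ρbar : ResidualGaloisRep k) (bbar : Module.Basis (Fin 2) k ρbar.V) :
    GalQ →* Matrix (Fin 2) (Fin 2) k :=
  (LinearMap.toMatrixAlgEquiv bbar).toAlgHom.toMonoidHom.comp ρbar.ρ

theorem resMatrixRep_apply (ρbar : ResidualGaloisRep k) (bbar : Module.Basis (Fin 2) k ρbar.V)
    (σ : GalQ) (i j : Fin 2) :
    resMatrixRep ρbar bbar σ i j = bbar.repr (ρbar.ρ σ (bbar j)) i := by
  show LinearMap.toMatrixAlgEquiv bbar (ρbar.ρ σ) i j = _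
  rw [LinearMap.toMatrixAlgEquiv_apply]

/-- `r` lifts the matrix representation `rbar` along `ψ : k → ResidueField A` -/
def IsMatrixLift (ψ : k →+* IsLocalRing.ResidueField A) (rbar : GalQ →* Matrix (Fin 2) (Fin 2) k)
    (r : GalQ →* Matrix (Fin 2) (Fin 2) A) : Prop :=
  ∀ σ i j, IsLocalRing.residue A (r σ i j) = ψ (rbar σ i j)

theorem residual_isEquiv_of_isMatrixLift (ψ : k →+* IsLocalRing.ResidueField A)
    (ρbar : ResidualGaloisRep k) (bbar : Module.Basis (Fin 2) k ρbar.V)
    (r : GalQ →* Matrix (Fin 2) (Fin 2) A) (hr : MatCont r)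
    (h : IsMatrixLift ψ (resMatrixRep ρbar bbar) r) :
    (ofMatrixRep r hr).residual.IsEquiv (ρbar.baseChangeAlong ψ) := by
  let _ : Algebra k (IsLocalRing.ResidueField A) := ψ.toAlgebra
  let β₁ : Module.Basis (Fin 2) (IsLocalRing.ResidueField A)
      (IsLocalRing.ResidueField A ⊗[A] (Fin 2 → A)) :=
    (Pi.basisFun A (Fin 2)).baseChange (IsLocalRing.ResidueField A)
  let β₂ : Module.Basis (Fin 2) (IsLocalRing.ResidueField A)
      (IsLocalRing.ResidueField A ⊗[k] ρbar.V) :=
    bbar.baseChange (IsLocalRing.ResidueField A)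
  let e : (IsLocalRing.ResidueField A ⊗[A] (Fin 2 → A)) ≃ₗ[IsLocalRing.ResidueField A]
      (IsLocalRing.ResidueField A ⊗[k] ρbar.V) := β₁.equiv β₂ (Equiv.refl _)
  have he : ∀ i, e (β₁ i) = β₂ i := fun i => by simp [e]
  have key : ∀ σ : GalQ,
      e.toLinearMap ∘ₗ ((mulVecHom (r σ)).baseChange (IsLocalRing.ResidueField A)) =
        ((ρbar.ρ σ).baseChange (IsLocalRing.ResidueField A)) ∘ₗ e.toLinearMap := by
    intro σ
    apply β₁.ext
    intro j
    rw [LinearMap.comp_apply, LinearMap.comp_apply, LinearEquiv.coe_coe, he]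
    have h1 : ∀ j, β₁ j = (1 : IsLocalRing.ResidueField A) ⊗ₜ[A] (Pi.basisFun A (Fin 2) j) :=
      fun j => Module.Basis.baseChange_apply _ _ _
    have h2 : ∀ j, β₂ j = (1 : IsLocalRing.ResidueField A) ⊗ₜ[k] (bbar j) :=
      fun j => Module.Basis.baseChange_apply _ _ _
    rw [h1, h2, LinearMap.baseChange_tmul, LinearMap.baseChange_tmul]
    -- expand both sides in the bases
    have h3 : mulVecHom (r σ) (Pi.basisFun A (Fin 2) j) =
        ∑ i, (r σ i j) • (Pi.basisFun A (Fin 2) i) := by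
      ext l
      simp [mulVecHom_apply, Matrix.mulVec, dotProduct, Pi.basisFun_apply, Pi.single_apply,
        Finset.sum_apply]
    have h4 : ρbar.ρ σ (bbar j) = ∑ i, (resMatrixRep ρbar bbar σ i j) • bbar i := by
      conv_lhs => rw [← bbar.sum_repr (ρbar.ρ σ (bbar j))]
      refine Finset.sum_congr rfl fun i _ => ?_
      rw [resMatrixRep_apply]
    rw [h3, h4, TensorProduct.tmul_sum, TensorProduct.tmul_sum, map_sum]
    refine Finset.sum_congr rfl fun i _ => ?_
    rw [TensorProduct.tmul_smul, TensorProduct.tmul_smul, ← h1, ← h2]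
    have h5 : (r σ i j) • β₁ i = (IsLocalRing.residue A (r σ i j)) • β₁ i := by
      rw [← IsLocalRing.ResidueField.algebraMap_eq, algebraMap_smul]
    have h6 : (resMatrixRep ρbar bbar σ i j) • β₂ i = ψ (resMatrixRep ρbar bbar σ i j) • β₂ i := by
      show _ = (algebraMap k (IsLocalRing.ResidueField A) _) • β₂ i
      rw [algebraMap_smul]
    rw [h5, h6, map_smul, he, h σ i j]
  refine ⟨⟨e, fun σ x => ?_⟩⟩
  exact LinearMap.congr_fun (key σ) x

theorem exists_isMatrixLift (ψ : k →+* IsLocalRing.ResidueField A)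
    (ρbar : ResidualGaloisRep k) (bbar : Module.Basis (Fin 2) k ρbar.V)
    (ρ : GaloisRepAdic A) (h : ρ.residual.IsEquiv (ρbar.baseChangeAlong ψ)) :
    ∃ b : Module.Basis (Fin 2) A ρ.V,
      IsMatrixLift ψ (resMatrixRep ρbar bbar) (matrixRepOfBasis ρ b) := by
  obtain ⟨e⟩ := h
  let _ : Algebra k (IsLocalRing.ResidueField A) := ψ.toAlgebra
  let β₂ : Module.Basis (Fin 2) (IsLocalRing.ResidueField A)
      (IsLocalRing.ResidueField A ⊗[k] ρbar.V) :=
    bbar.baseChange (IsLocalRing.ResidueField A)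
  let E : (IsLocalRing.ResidueField A ⊗[A] ρ.V) ≃ₗ[IsLocalRing.ResidueField A]
      (IsLocalRing.ResidueField A ⊗[k] ρbar.V) := e.toLinearEquiv
  have hE : ∀ σ (x : IsLocalRing.ResidueField A ⊗[A] ρ.V),
      E ((ρ.ρ σ).baseChange (IsLocalRing.ResidueField A) x) =
        (ρbar.ρ σ).baseChange (IsLocalRing.ResidueField A) (E x) := e.map_apply
  -- basis of the residual space of ρ
  let w : Module.Basis (Fin 2) (IsLocalRing.ResidueField A)
      (IsLocalRing.ResidueField A ⊗[A] ρ.V) := β₂.map E.symm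
  have hsurj := (TensorProduct.mk_surjective A ρ.V (IsLocalRing.ResidueField A)
    Ideal.Quotient.mk_surjective).comp_left w
  obtain ⟨v, hv⟩ := hsurj
  have hv' : ∀ i, (1 : IsLocalRing.ResidueField A) ⊗ₜ[A] v i = w i := fun i => congr_fun hv i
  have hv'' : (TensorProduct.mk A (IsLocalRing.ResidueField A) ρ.V 1) ∘ v = ⇑w := hv
  let b : Module.Basis (Fin 2) A ρ.V :=
    .mk (Module.IsLocalRing.linearIndependent_of_flat _ (hv'' ▸ w.linearIndependent))
      (IsLocalRing.span_eq_top_of_tmul_eq_basis _ w hv').ge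
  have hb : ∀ i, b i = v i := fun i => by simp [b]
  refine ⟨b, fun σ i j => ?_⟩
  rw [matrixRepOfBasis_apply]
  -- compute E (1 ⊗ ρ σ (b j)) in two ways
  have hEw : ∀ i, E (w i) = β₂ i := fun i => by simp [w]
  have h2 : ∀ j, β₂ j = (1 : IsLocalRing.ResidueField A) ⊗ₜ[k] (bbar j) :=
    fun j => Module.Basis.baseChange_apply _ _ _
  have way1 : E ((1 : IsLocalRing.ResidueField A) ⊗ₜ[A] (ρ.ρ σ (b j))) =
      ∑ i, ψ (resMatrixRep ρbar bbar σ i j) • β₂ i := by
    rw [← LinearMap.baseChange_tmul, hb, hv', hE, hEw, h2, LinearMap.baseChange_tmul]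
    have h4 : ρbar.ρ σ (bbar j) = ∑ i, (resMatrixRep ρbar bbar σ i j) • bbar i := by
      conv_lhs => rw [← bbar.sum_repr (ρbar.ρ σ (bbar j))]
      refine Finset.sum_congr rfl fun i _ => ?_
      rw [resMatrixRep_apply]
    rw [h4, TensorProduct.tmul_sum]
    refine Finset.sum_congr rfl fun i _ => ?_
    rw [TensorProduct.tmul_smul, ← h2]
    show _ = (algebraMap k (IsLocalRing.ResidueField A) _) • β₂ i
    rw [algebraMap_smul]
  have way2 : E ((1 : IsLocalRing.ResidueField A) ⊗ₜ[A] (ρ.ρ σ (b j))) =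
      ∑ i, IsLocalRing.residue A (b.repr (ρ.ρ σ (b j)) i) • β₂ i := by
    conv_lhs => rw [← b.sum_repr (ρ.ρ σ (b j))]
    rw [TensorProduct.tmul_sum, map_sum]
    refine Finset.sum_congr rfl fun i _ => ?_
    have hbw : (1 : IsLocalRing.ResidueField A) ⊗ₜ[A] b i = w i := by rw [hb, hv']
    have hsm : ∀ c : A, c • w i = (IsLocalRing.residue A c) • w i := fun c => by
      rw [← IsLocalRing.ResidueField.algebraMap_eq, algebraMap_smul]
    rw [TensorProduct.tmul_smul, hbw, hsm, map_smul, hEw]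
  have h3 := way2.symm.trans way1
  have h4 := congrArg (fun x => β₂.repr x i) h3
  simp only [Module.Basis.repr_sum_self] at h4
  exact h4

omit [IsLocalRing A] in
theorem matrixRepOfBasis_ofResidualGaloisRep (ρbar : ResidualGaloisRep k)
    (bbar : Module.Basis (Fin 2) k ρbar.V) :
    matrixRepOfBasis (GaloisRepAdic.ofResidualGaloisRep ρbar) bbar = resMatrixRep ρbar bbar := rfl

/-- matrix lifts are stable under local base change -/
theorem IsMatrixLift.map {B : Type} [CommRing B] [IsLocalRing B] (φ : A →+* B) [IsLocalHom φ]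
    {ψ : k →+* IsLocalRing.ResidueField A} {rbar : GalQ →* Matrix (Fin 2) (Fin 2) k}
    {r : GalQ →* Matrix (Fin 2) (Fin 2) A} (h : IsMatrixLift ψ rbar r) :
    IsMatrixLift ((IsLocalRing.ResidueField.map φ).comp ψ) rbar (mapMatrixRep φ r) := by
  intro σ i j
  rw [mapMatrixRep_apply, RingHom.comp_apply, ← h σ i j, IsLocalRing.ResidueField.map_residue]

end Residual

end Fermat.Agent.Lib.Helper6
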