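/-
S53, part (C): dictionary between `GaloisRepAdic` and matrix representations, phrased in the
vocabulary of `Fermat.Agent.Lib.S53` (`MatRep`, `Frame`, `ReducesTo`).
-/
import Mathlib
import Fermat.Agent.Lib.S53.Defs
import Fermat.Agent.Lib.Helper6.MatrixRep

set_option autoImplicit false
set_option linter.unusedSectionVars false

noncomputable section

namespace Fermat.Agent.Lib.Helper6

open Fermat.Agent.Lib.S53 IsLocalRing

section General

variable {A : Type} [CommRing A] [IsLocalRing A]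

theorem toGaloisRepAdic_eq (ρ : MatRep A) : ρ.toGaloisRepAdic = ofMatrixRep ρ.r ρ.cont := rfl

theorem map_r_eq {B : Type} [CommRing B] [IsLocalRing B] (φ : A →+* B) (hφ : IsLocalHom φ)
    (ρ : MatRep A) : (ρ.map φ hφ).r = mapMatrixRep φ ρ.r := rfl

/-- (C1) base change of the Galois representation attached to a matrix representation is the
Galois representation attached to the entrywise image. -/
def dictBaseChange {B : Type} [CommRing B] [IsLocalRing B] (φ : A →+* B) (hφ : IsLocalHom φ)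
    (ρ : MatRep A) :
    GaloisRepAdic.Equiv (ρ.toGaloisRepAdic.baseChangeAlong φ hφ) (ρ.map φ hφ).toGaloisRepAdic :=
  baseChangeEquiv φ hφ ρ.r ρ.cont

theorem dict_isEquiv_baseChange {B : Type} [CommRing B] [IsLocalRing B] (φ : A →+* B)
    (hφ : IsLocalHom φ) (ρ : MatRep A) :
    (ρ.toGaloisRepAdic.baseChangeAlong φ hφ).IsEquiv (ρ.map φ hφ).toGaloisRepAdic :=
  ⟨dictBaseChange φ hφ ρ⟩

/-- equivalence of the attached Galois representations is an intertwining invertible matrix -/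
theorem dict_isEquiv_iff (ρ ρ' : MatRep A) :
    ρ.toGaloisRepAdic.IsEquiv ρ'.toGaloisRepAdic ↔
      ∃ g : (Matrix (Fin 2) (Fin 2) A)ˣ, ∀ σ, (g : Matrix (Fin 2) (Fin 2) A) * ρ.r σ = ρ'.r σ * g :=
  isEquiv_ofMatrixRep_iff ρ.r ρ'.r ρ.cont ρ'.cont

/-- (C2) a matrix representation is equivalent to each of its conjugates -/
theorem dict_isEquiv_conj (ρ : MatRep A) (C : (Matrix (Fin 2) (Fin 2) A)ˣ) :
    ρ.toGaloisRepAdic.IsEquiv (ρ.conj C).toGaloisRepAdic := by
  rw [dict_isEquiv_iff]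
  refine ⟨C⁻¹, fun σ => ?_⟩
  rw [MatRep.conj_r_apply, mul_assoc, mul_assoc, Units.mul_inv, mul_one]

/-- (C2) data version -/
def dictConj (ρ : MatRep A) (C : (Matrix (Fin 2) (Fin 2) A)ˣ) :
    GaloisRepAdic.Equiv ρ.toGaloisRepAdic (ρ.conj C).toGaloisRepAdic :=
  Classical.choice (dict_isEquiv_conj ρ C)

/-- (C2) converse: equivalent matrix representations are conjugate -/
theorem dict_exists_conj_of_isEquiv {ρ ρ' : MatRep A}
    (h : ρ.toGaloisRepAdic.IsEquiv ρ'.toGaloisRepAdic) :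
    ∃ C : (Matrix (Fin 2) (Fin 2) A)ˣ, ρ' = ρ.conj C := by
  obtain ⟨g, hg⟩ := (dict_isEquiv_iff ρ ρ').mp h
  refine ⟨g⁻¹, MatRep.ext fun σ => ?_⟩
  rw [MatRep.conj_r_apply, inv_inv, hg σ, mul_assoc, Units.mul_inv, mul_one]

theorem dict_isEquiv_iff_exists_conj (ρ ρ' : MatRep A) :
    ρ.toGaloisRepAdic.IsEquiv ρ'.toGaloisRepAdic ↔
      ∃ C : (Matrix (Fin 2) (Fin 2) A)ˣ, ρ' = ρ.conj C :=
  ⟨dict_exists_conj_of_isEquiv, fun ⟨C, hC⟩ => hC ▸ dict_isEquiv_conj ρ C⟩

/-- every Galois representation is equivalent to a matrix representation (any basis) -/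
theorem dict_exists_matRep (ρA : GaloisRepAdic A) :
    ∃ ρ : MatRep A, ρ.toGaloisRepAdic.IsEquiv ρA := by
  obtain ⟨b⟩ := exists_basis ρA
  exact ⟨⟨matrixRepOfBasis ρA b, matCont_matrixRepOfBasis ρA b⟩, ⟨equivOfBasis ρA b⟩⟩

end General

section Framed

variable {𝒪 : Type} [CommRing 𝒪] [IsLocalRing 𝒪]
variable {A : Type} [CommRing A] [IsLocalRing A] [Algebra 𝒪 A] [IsLocalHom (algebraMap 𝒪 A)]

theorem reducesTo_iff_isMatrixLift {ρbar : ResidualGaloisRep (ResidueField 𝒪)} (F : Frame 𝒪 ρbar)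
    (ρ : MatRep A) :
    ReducesTo F ρ ↔
      IsMatrixLift (ResidueField.map (algebraMap 𝒪 A)) (resMatrixRep ρbar F.b) ρ.r :=
  Iff.rfl

/-- (C3) every lift of `ρbar` is equivalent to a matrix representation reducing exactly to
`ρbar` in the frame. -/
theorem dict_exists_reducesTo {ρbar : ResidualGaloisRep (ResidueField 𝒪)} (F : Frame 𝒪 ρbar)
    (ρA : GaloisRepAdic A)
    (h : ρA.residual.IsEquiv (ρbar.baseChangeAlong (ResidueField.map (algebraMap 𝒪 A)))) :
    ∃ ρ : MatRep A, ReducesTo F ρ ∧ ρ.toGaloisRepAdic.IsEquiv ρA := by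
  obtain ⟨b, hb⟩ := exists_isMatrixLift (ResidueField.map (algebraMap 𝒪 A)) ρbar F.b ρA h
  exact ⟨⟨matrixRepOfBasis ρA b, matCont_matrixRepOfBasis ρA b⟩, hb, ⟨equivOfBasis ρA b⟩⟩

/-- (C4) a matrix representation reducing to `ρbar` has residual representation `ρbar`. -/
theorem dict_residual_isEquiv {ρbar : ResidualGaloisRep (ResidueField 𝒪)} (F : Frame 𝒪 ρbar)
    (ρ : MatRep A) (h : ReducesTo F ρ) :
    ρ.toGaloisRepAdic.residual.IsEquiv
      (ρbar.baseChangeAlong (ResidueField.map (algebraMap 𝒪 A))) :=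
  residual_isEquiv_of_isMatrixLift (ResidueField.map (algebraMap 𝒪 A)) ρbar F.b ρ.r ρ.cont h

end Framed

section Condition

open GaloisRep

variable {𝒪 : Type} [CommRing 𝒪] [IsLocalRing 𝒪]
variable {𝒟 : ∀ ⦃A : Type⦄ [CommRing A] [IsLocalRing A] [Algebra 𝒪 A], GaloisRepAdic A → Prop}

/-- A deformation condition is invariant under equivalence over complete noetherian local
coefficient rings (the structure only records this over Artinian ones). -/
theorem dict_of_isEquiv_complete (h𝒟 : IsDeformationCondition 𝒪 𝒟)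
    {A : Type} [CommRing A] [IsLocalRing A] [IsNoetherianRing A]
    [IsAdicComplete (maximalIdeal A) A] [Algebra 𝒪 A]
    (hloc : IsLocalHom (algebraMap 𝒪 A))
    (hsurj : Function.Surjective (IsLocalRing.residue A ∘ algebraMap 𝒪 A))
    {ρ ρ' : GaloisRepAdic A} (e : ρ.IsEquiv ρ') (h : 𝒟 ρ) : 𝒟 ρ' := by
  obtain ⟨e⟩ := e
  refine (h𝒟.iff_forall_surjective hloc hsurj ρ').mpr fun B _ _ _ hB q hq hqs => ?_
  exact h𝒟.of_isEquiv hB ⟨e.baseChangeAlong (q : A →+* B) hq⟩
    ((h𝒟.iff_forall_surjective hloc hsurj ρ).mp h hB q hq hqs)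

theorem dict_isEquiv_complete_iff (h𝒟 : IsDeformationCondition 𝒪 𝒟)
    {A : Type} [CommRing A] [IsLocalRing A] [IsNoetherianRing A]
    [IsAdicComplete (maximalIdeal A) A] [Algebra 𝒪 A]
    (hloc : IsLocalHom (algebraMap 𝒪 A))
    (hsurj : Function.Surjective (IsLocalRing.residue A ∘ algebraMap 𝒪 A))
    {ρ ρ' : GaloisRepAdic A} (e : ρ.IsEquiv ρ') : 𝒟 ρ ↔ 𝒟 ρ' :=
  ⟨dict_of_isEquiv_complete h𝒟 hloc hsurj e,
    dict_of_isEquiv_complete h𝒟 hloc hsurj (e.elim fun e => ⟨e.symm⟩)⟩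

end Condition

end Fermat.Agent.Lib.Helper6
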