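import Mathlib
import Fermat.Prelude.Def_EllipticCurve_FrobeniusTrace
import Fermat.Prelude.Def_FLTPrelim_Ramification

/-!
Existence of Frobenius elements in the absolute Galois group of the rationals:
for every prime `ℓ` there are a valuation subring `A` of `AlgebraicClosure ℚ` lying over `ℓ`
and `σ` in the Galois group with `A.IsFrobeniusAt σ ℓ`.
-/

set_option autoImplicit false
set_option linter.style.haveILetI false

noncomputable section

namespace Fermat.Agent.Lib.Helper6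

open Polynomial
open scoped Pointwise

section Horner

variable {K : Type*} [Field K]

/-- Horner partial sums: `horner p x k = ∑_{i ≥ k} p_i x^(i-k)`. -/
def horner (p : ℤ[X]) (x : K) (k : ℕ) : K := aeval x (divX^[k] p)

theorem coeff_iterate_divX (p : ℤ[X]) (k n : ℕ) : (divX^[k] p).coeff n = p.coeff (n + k) := by
  induction k generalizing n with
  | zero => simp
  | succ k ih =>
    rw [Function.iterate_succ_apply', coeff_divX, ih]
    ring_nf

theorem horner_zero (p : ℤ[X]) (x : K) : horner p x 0 = aeval x p := rfl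

theorem horner_succ (p : ℤ[X]) (x : K) (k : ℕ) :
    horner p x k = x * horner p x (k + 1) + (p.coeff k : K) := by
  unfold horner
  rw [Function.iterate_succ_apply']
  conv_lhs => rw [← divX_mul_X_add (divX^[k] p)]
  rw [map_add, map_mul, aeval_X, aeval_C, coeff_iterate_divX, zero_add]
  simp [mul_comm]

theorem horner_mem_valuationSubring (p : ℤ[X]) (x : K) (hx : aeval x p = 0)
    (V : ValuationSubring K) (k : ℕ) : horner p x k ∈ V := by
  by_cases hxV : x ∈ V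
  · unfold horner
    have : aeval x (divX^[k] p) ∈ Algebra.adjoin ℤ {x} := aeval_mem_adjoin_singleton ℤ x
    have hle : Algebra.adjoin ℤ {x} ≤ subalgebraOfSubring V.toSubring :=
      Algebra.adjoin_le (by simpa using hxV)
    exact hle this
  · have hx0 : x ≠ 0 := fun h => hxV (h ▸ V.zero_mem)
    have hinv : x⁻¹ ∈ V := (V.mem_or_inv_mem x).resolve_left hxV
    induction k with
    | zero => rw [horner_zero, hx]; exact V.zero_mem
    | succ k ih =>
      have h := horner_succ p x k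
      have : horner p x (k + 1) = x⁻¹ * (horner p x k - (p.coeff k : K)) := by
        rw [h, add_sub_cancel_right, ← mul_assoc, inv_mul_cancel₀ hx0, one_mul]
      rw [this]
      exact V.mul_mem _ _ hinv (V.toSubring.sub_mem ih (intCast_mem V.toSubring _))

theorem horner_isIntegral (p : ℤ[X]) (x : K) (hx : aeval x p = 0) (k : ℕ) :
    IsIntegral ℤ (horner p x k) := by
  by_contra hni
  have hni' : horner p x k ∉ (integralClosure ℤ K).toSubring := hni
  obtain ⟨V, _, hV⟩ := Subring.exists_le_valuationSubring_of_isIntegrallyClosedIn hni'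
  exact hV (horner_mem_valuationSubring p x hx V k)

end Horner

abbrev Qbar := AlgebraicClosure ℚ
abbrev GQ := Qbar ≃ₐ[ℚ] Qbar

theorem algebra_eq :
    (DivisionRing.toRatAlgebra : Algebra ℚ Qbar) = AlgebraicClosure.instAlgebra ℚ :=
  Subsingleton.elim _ _

instance isAlgClosure_Qbar : IsAlgClosure ℚ Qbar := by
  rw [algebra_eq]
  infer_instance

/-- the subring of algebraic integers in Qbar -/
abbrev Zbar : Subring Qbar := (integralClosure ℤ Qbar).toSubring

theorem mem_Zbar {x : Qbar} : x ∈ Zbar ↔ IsIntegral ℤ x := Iff.rfl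

instance isInvariantSubring_Zbar : IsInvariantSubring GQ Zbar where
  smul_mem σ _ hx := map_isIntegral_int σ hx

theorem isInvariant_Zbar : Algebra.IsInvariant ℤ Zbar GQ := by
  refine ⟨fun b hb => ?_⟩
  have hfix : ∀ g : GQ, g (b : Qbar) = b := fun g => congrArg Subtype.val (hb g)
  have hbot : (b : Qbar) ∈ (⊥ : IntermediateField ℚ Qbar) := by
    rw [← InfiniteGalois.fixedField_fixingSubgroup (⊥ : IntermediateField ℚ Qbar)]
    rw [IntermediateField.mem_fixedField_iff]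
    intro g _
    exact hfix g
  rw [IntermediateField.mem_bot] at hbot
  obtain ⟨q, hq⟩ := hbot
  have hint : IsIntegral ℤ q := by
    have : IsIntegral ℤ (algebraMap ℚ Qbar q) := hq ▸ b.2
    exact (isIntegral_algebraMap_iff (algebraMap ℚ Qbar).injective).mp this
  obtain ⟨a, ha⟩ := IsIntegrallyClosed.algebraMap_eq_of_integral hint
  refine ⟨a, Subtype.ext ?_⟩
  rw [← hq, ← ha]
  simp

instance topologicalSpace_Zbar : TopologicalSpace Zbar := ⊥
instance discreteTopology_Zbar : DiscreteTopology Zbar := ⟨rfl⟩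

instance continuousSMul_Zbar : ContinuousSMul GQ Zbar := by
  rw [continuousSMul_iff_stabilizer_isOpen]
  intro x
  have := stabilizer_isOpen_of_isIntegral (K := ℚ) (L := Qbar) (x : Qbar)
  convert this using 1
  ext g
  simp only [SetLike.mem_coe, MulAction.mem_stabilizer_iff]
  constructor
  · intro h; exact congrArg Subtype.val h
  · intro h; exact Subtype.ext h

/-- existence of a maximal ideal of Zbar containing ℓ -/
theorem exists_maximal_over (ℓ : ℕ) (hℓ : ℓ.Prime) :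
    ∃ Q : Ideal Zbar, Q.IsMaximal ∧ ((ℓ : ℕ) : Zbar) ∈ Q := by
  have hne : Ideal.span {((ℓ : ℕ) : Zbar)} ≠ ⊤ := by
    intro h
    rw [Ideal.eq_top_iff_one, Ideal.mem_span_singleton'] at h
    obtain ⟨b, hb⟩ := h
    have hb' : (b : Qbar) * (ℓ : Qbar) = 1 := by
      have := congrArg Subtype.val hb
      simpa using this
    have hbq : (b : Qbar) = algebraMap ℚ Qbar ((ℓ : ℚ)⁻¹) := by
      rw [map_inv₀, map_natCast]
      exact eq_inv_of_mul_eq_one_left hb'
    have hint : IsIntegral ℤ ((ℓ : ℚ)⁻¹) := by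
      have : IsIntegral ℤ (algebraMap ℚ Qbar ((ℓ : ℚ)⁻¹)) := hbq ▸ b.2
      exact (isIntegral_algebraMap_iff (algebraMap ℚ Qbar).injective).mp this
    obtain ⟨a, ha⟩ := IsIntegrallyClosed.algebraMap_eq_of_integral hint
    have h1 : (a : ℚ) * ℓ = 1 := by
      have : (algebraMap ℤ ℚ a) = (a : ℚ) := rfl
      rw [← this, ha]
      exact inv_mul_cancel₀ (Nat.cast_ne_zero.mpr hℓ.ne_zero)
    have h2 : a * (ℓ : ℤ) = 1 := by exact_mod_cast h1
    have h3 : ((ℓ : ℤ)) ∣ 1 := Dvd.intro_left a h2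
    have h4 : (ℓ : ℤ) = 1 ∨ (ℓ : ℤ) = -1 := Int.isUnit_iff.mp (isUnit_of_dvd_one h3)
    have := hℓ.one_lt
    omega
  obtain ⟨Q, hQ, hle⟩ := Ideal.exists_le_maximal _ hne
  exact ⟨Q, hQ, hle (Ideal.subset_span rfl)⟩

theorem frobenius_surjective_quot (ℓ : ℕ) [hℓ : Fact ℓ.Prime] (Q : Ideal Zbar) [Q.IsMaximal]
    [CharP (Zbar ⧸ Q) ℓ] : Function.Surjective (frobenius (Zbar ⧸ Q) ℓ) := by
  intro y
  obtain ⟨b, rfl⟩ := Ideal.Quotient.mk_surjective y
  obtain ⟨c, hc⟩ := IsAlgClosed.exists_pow_nat_eq (b : Qbar) hℓ.out.pos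
  have hcint : IsIntegral ℤ c := by
    have : IsIntegral ℤ (c ^ ℓ) := hc ▸ b.2
    exact IsIntegral.of_pow hℓ.out.pos this
  refine ⟨Ideal.Quotient.mk Q ⟨c, hcint⟩, ?_⟩
  rw [frobenius_def, ← map_pow]
  congr 1
  exact Subtype.ext hc

theorem exists_frob (ℓ : ℕ) [hℓ : Fact ℓ.Prime] (Q : Ideal Zbar) [hQ : Q.IsMaximal]
    (hℓQ : ((ℓ : ℕ) : Zbar) ∈ Q) :
    ∃ σ : GQ, σ • Q = Q ∧ ∀ x : Zbar, σ • x - x ^ ℓ ∈ Q := by
  haveI : Algebra.IsInvariant ℤ Zbar GQ := isInvariant_Zbar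
  letI : Field (Zbar ⧸ Q) := Ideal.Quotient.field Q
  haveI : CharP (Zbar ⧸ Q) ℓ := by
    rw [CharP.charP_iff_prime_eq_zero hℓ.out]
    rw [← map_natCast (Ideal.Quotient.mk Q)]
    exact Ideal.Quotient.eq_zero_iff_mem.mpr hℓQ
  haveI : PerfectRing (Zbar ⧸ Q) ℓ :=
    PerfectRing.ofSurjective _ ℓ (frobenius_surjective_quot ℓ Q)
  let P : Ideal ℤ := Q.under ℤ
  let l : (Zbar ⧸ Q) ≃ₐ[ℤ ⧸ P] (Zbar ⧸ Q) :=
    { frobeniusEquiv (Zbar ⧸ Q) ℓ with
      commutes' := fun r => by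
        obtain ⟨r, rfl⟩ := Ideal.Quotient.mk_surjective r
        show frobenius (Zbar ⧸ Q) ℓ _ = _
        rw [← Ideal.Quotient.algebraMap_eq, ← IsScalarTower.algebraMap_apply,
          eq_intCast, map_intCast] }
  obtain ⟨σ, hσ⟩ := Ideal.Quotient.stabilizerHom_surjective_of_profinite (G := GQ) P Q l
  refine ⟨σ.1, σ.2, fun x => ?_⟩
  rw [← Ideal.Quotient.eq]
  have := DFunLike.congr_fun hσ (Ideal.Quotient.mk Q x)
  rw [map_pow]
  exact this

/-- the localisation of `Zbar` at a prime, as a subring of `Qbar` -/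
def locSubring (Q : Ideal Zbar) [hQ : Q.IsPrime] : Subring Qbar where
  carrier := {x | ∃ c : Zbar, c ∉ Q ∧ (c : Qbar) * x ∈ Zbar}
  mul_mem' := by
    rintro x y ⟨c, hc, hcx⟩ ⟨d, hd, hdy⟩
    refine ⟨c * d, fun h => (hQ.mem_or_mem h).elim hc hd, ?_⟩
    have : ((c * d : Zbar) : Qbar) * (x * y) = ((c : Qbar) * x) * ((d : Qbar) * y) := by
      push_cast; ring
    rw [this]
    exact Zbar.mul_mem hcx hdy
  one_mem' := ⟨1, fun h => hQ.ne_top ((Ideal.eq_top_iff_one _).mpr h), by simp [Zbar.one_mem]⟩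
  add_mem' := by
    rintro x y ⟨c, hc, hcx⟩ ⟨d, hd, hdy⟩
    refine ⟨c * d, fun h => (hQ.mem_or_mem h).elim hc hd, ?_⟩
    have : ((c * d : Zbar) : Qbar) * (x + y) =
        (d : Qbar) * ((c : Qbar) * x) + (c : Qbar) * ((d : Qbar) * y) := by
      push_cast; ring
    rw [this]
    exact Zbar.add_mem (Zbar.mul_mem d.2 hcx) (Zbar.mul_mem c.2 hdy)
  zero_mem' := ⟨1, fun h => hQ.ne_top ((Ideal.eq_top_iff_one _).mpr h), by simp [Zbar.zero_mem]⟩
  neg_mem' := by
    rintro x ⟨c, hc, hcx⟩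
    refine ⟨c, hc, ?_⟩
    rw [mul_neg]
    exact Zbar.neg_mem hcx

theorem mem_locSubring {Q : Ideal Zbar} [Q.IsPrime] {x : Qbar} :
    x ∈ locSubring Q ↔ ∃ c : Zbar, c ∉ Q ∧ (c : Qbar) * x ∈ Zbar := Iff.rfl

theorem int_mem_of_prime_mem {ℓ : ℕ} (hℓ : ℓ.Prime) {Q : Ideal Zbar} [hQ : Q.IsPrime]
    (hℓQ : ((ℓ : ℕ) : Zbar) ∈ Q) {c : ℤ} (hc : ((c : ℤ) : Zbar) ∈ Q) : (ℓ : ℤ) ∣ c := by
  by_contra hnd
  have hcop : IsCoprime (ℓ : ℤ) c := by
    rw [Int.isCoprime_iff_gcd_eq_one]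
    have := (Nat.Prime.coprime_iff_not_dvd hℓ).mpr (fun h => hnd (Int.natCast_dvd.mpr h))
    simpa [Int.gcd] using this
  obtain ⟨a, b, hab⟩ := hcop
  apply hQ.ne_top
  rw [Ideal.eq_top_iff_one]
  have : (1 : Zbar) = (a : Zbar) * ((ℓ : ℕ) : Zbar) + (b : Zbar) * ((c : ℤ) : Zbar) := by
    have := congrArg (Int.cast : ℤ → Zbar) hab
    push_cast at this
    exact this.symm
  rw [this]
  exact Q.add_mem (Q.mul_mem_left _ hℓQ) (Q.mul_mem_left _ hc)

theorem mem_or_inv_mem_locSubring {ℓ : ℕ} (hℓ : ℓ.Prime) {Q : Ideal Zbar} [hQ : Q.IsPrime]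
    (hℓQ : ((ℓ : ℕ) : Zbar) ∈ Q) (x : Qbar) : x ∈ locSubring Q ∨ x⁻¹ ∈ locSubring Q := by
  by_contra hcon
  rw [not_or] at hcon
  obtain ⟨hx, hxi⟩ := hcon
  have hx0 : x ≠ 0 := fun h => hx (h ▸ (locSubring Q).zero_mem)
  -- a primitive integer polynomial killing x
  have halg : IsAlgebraic ℤ x :=
    (IsFractionRing.isAlgebraic_iff ℤ ℚ Qbar).mpr (Algebra.IsAlgebraic.isAlgebraic x)
  obtain ⟨p0, hp0, hp0x⟩ := halg
  set p := p0.primPart with hp
  have hpx : aeval x p = 0 := aeval_primPart_eq_zero hp0 hp0x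
  have hprim : p.IsPrimitive := isPrimitive_primPart p0
  set y : ℕ → Qbar := fun k => horner p x k with hy
  have hyint : ∀ k, IsIntegral ℤ (y k) := fun k => horner_isIntegral p x hpx k
  have hy0 : y 0 = 0 := hpx
  have hysucc : ∀ k, y k = x * y (k + 1) + (p.coeff k : Qbar) := fun k => horner_succ p x k
  -- key claim
  have key : ∀ k, (⟨y (k + 1), hyint (k + 1)⟩ : Zbar) ∈ Q ∧
      (⟨y k, hyint k⟩ - ((p.coeff k : ℤ) : Zbar) : Zbar) ∈ Q := by
    intro k
    constructor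
    · by_contra hnot
      apply hx
      refine ⟨⟨y (k + 1), hyint (k + 1)⟩, hnot, ?_⟩
      have : y (k + 1) * x = y k - (p.coeff k : Qbar) := by rw [hysucc k]; ring
      show y (k + 1) * x ∈ Zbar
      rw [this]
      exact Zbar.sub_mem (hyint k) (intCast_mem Zbar _)
    · by_contra hnot
      apply hxi
      refine ⟨⟨y k, hyint k⟩ - ((p.coeff k : ℤ) : Zbar), hnot, ?_⟩
      have : ((⟨y k, hyint k⟩ - ((p.coeff k : ℤ) : Zbar) : Zbar) : Qbar) * x⁻¹ = y (k + 1) := by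
        push_cast
        rw [hysucc k]
        field_simp
        ring
      rw [this]
      exact hyint (k + 1)
  have hcoeff : ∀ k, (((p.coeff k : ℤ)) : Zbar) ∈ Q := by
    intro k
    have h2 := (key k).2
    have h1 : (⟨y k, hyint k⟩ : Zbar) ∈ Q := by
      cases k with
      | zero =>
        have : (⟨y 0, hyint 0⟩ : Zbar) = 0 := Subtype.ext hy0
        rw [this]; exact Q.zero_mem
      | succ k => exact (key k).1
    have := Q.sub_mem h1 h2
    simpa using this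
  have hdvd : C (ℓ : ℤ) ∣ p := by
    rw [C_dvd_iff_dvd_coeff]
    intro k
    exact int_mem_of_prime_mem hℓ hℓQ (hcoeff k)
  have hunit := hprim _ hdvd
  have h4 : (ℓ : ℤ) = 1 ∨ (ℓ : ℤ) = -1 := Int.isUnit_iff.mp hunit
  have := hℓ.one_lt
  omega

/-- the localisation of `Zbar` at a prime over `ℓ`, as a valuation subring -/
def locVal {ℓ : ℕ} (hℓ : ℓ.Prime) (Q : Ideal Zbar) [Q.IsPrime] (hℓQ : ((ℓ : ℕ) : Zbar) ∈ Q) :
    ValuationSubring Qbar :=
  ValuationSubring.ofSubring (locSubring Q) (mem_or_inv_mem_locSubring hℓ hℓQ)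

section

variable {ℓ : ℕ} (hℓ : ℓ.Prime) (Q : Ideal Zbar) [hQ : Q.IsPrime] (hℓQ : ((ℓ : ℕ) : Zbar) ∈ Q)

theorem mem_locVal {x : Qbar} :
    x ∈ locVal hℓ Q hℓQ ↔ ∃ c : Zbar, c ∉ Q ∧ (c : Qbar) * x ∈ Zbar := Iff.rfl

theorem one_notMem : (1 : Zbar) ∉ Q := fun h => hQ.ne_top ((Ideal.eq_top_iff_one _).mpr h)

theorem Zbar_le_locVal {x : Qbar} (hx : x ∈ Zbar) : x ∈ locVal hℓ Q hℓQ :=
  ⟨1, one_notMem Q, by simpa using hx⟩

theorem inv_mem_locVal {c : Zbar} (hc : c ∉ Q) : (c : Qbar)⁻¹ ∈ locVal hℓ Q hℓQ := by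
  refine ⟨c, hc, ?_⟩
  have hc0 : (c : Qbar) ≠ 0 := by
    intro h
    apply hc
    have : c = 0 := Subtype.ext h
    rw [this]; exact Q.zero_mem
  rw [mul_inv_cancel₀ hc0]
  exact Zbar.one_mem

theorem mem_nonunits_of_mem {q : Zbar} (hq : q ∈ Q) : (q : Qbar) ∈ (locVal hℓ Q hℓQ).nonunits := by
  rw [ValuationSubring.mem_nonunits_iff_or]
  by_cases h0 : (q : Qbar) = 0
  · exact Or.inl h0
  · right
    rintro ⟨c, hc, hcq⟩
    apply hc
    have : c = (⟨(c : Qbar) * (q : Qbar)⁻¹, hcq⟩ : Zbar) * q := by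
      apply Subtype.ext
      push_cast
      field_simp
    rw [this]
    exact Q.mul_mem_left _ hq

theorem liesOver_locVal : (locVal hℓ Q hℓQ).LiesOverPrime ℓ := by
  unfold ValuationSubring.LiesOverPrime
  have := mem_nonunits_of_mem hℓ Q hℓQ hℓQ
  simpa using this

theorem smul_mem_locVal {τ : GQ} (hτ : τ • Q = Q) {x : Qbar} (hx : x ∈ locVal hℓ Q hℓQ) :
    τ x ∈ locVal hℓ Q hℓQ := by
  obtain ⟨c, hc, hcx⟩ := hx
  refine ⟨τ • c, ?_, ?_⟩
  · intro h
    apply hc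
    have : τ • c ∈ τ • Q := by rw [hτ]; exact h
    exact (Ideal.smul_mem_pointwise_smul_iff).mp this
  · have : ((τ • c : Zbar) : Qbar) * τ x = τ ((c : Qbar) * x) := by
      rw [map_mul]; rfl
    rw [this]
    exact map_isIntegral_int τ hcx

theorem mem_decomposition {σ : GQ} (hσ : σ • Q = Q) :
    σ ∈ (locVal hℓ Q hℓQ).decompositionSubgroup ℚ := by
  rw [MulAction.mem_stabilizer_iff]
  have hσ' : σ⁻¹ • Q = Q := by
    conv_lhs => rw [← hσ]
    rw [inv_smul_smul]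
  apply ValuationSubring.ext
  intro x
  rw [ValuationSubring.mem_pointwise_smul_iff_inv_smul_mem]
  constructor
  · intro h
    have := smul_mem_locVal hℓ Q hℓQ hσ h
    simpa using this
  · intro h
    exact smul_mem_locVal hℓ Q hℓQ hσ' h

theorem isFrobeniusAt_locVal {σ : GQ} (hσ : σ • Q = Q) (hfrob : ∀ x : Zbar, σ • x - x ^ ℓ ∈ Q) :
    (locVal hℓ Q hℓQ).IsFrobeniusAt σ ℓ := by
  refine ⟨mem_decomposition hℓ Q hℓQ hσ, ?_⟩
  set A := locVal hℓ Q hℓQ with hA
  set g : A.decompositionSubgroup ℚ := ⟨σ, mem_decomposition hℓ Q hℓQ hσ⟩ with hg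
  intro x
  obtain ⟨a, rfl⟩ := IsLocalRing.residue_surjective x
  rw [← IsLocalRing.ResidueField.residue_smul, ← map_pow]
  -- write a = b / c
  obtain ⟨c, hc, hcb⟩ := a.2
  set b : Zbar := ⟨(c : Qbar) * (a : Qbar), hcb⟩ with hb
  -- elements of A
  let ι : Zbar → A := fun z => ⟨(z : Qbar), Zbar_le_locVal hℓ Q hℓQ z.2⟩
  have hι_mul : ι b = ι c * a := Subtype.ext rfl
  have hres : ∀ z : Zbar, IsLocalRing.residue A (g • ι z) = IsLocalRing.residue A (ι z) ^ ℓ := by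
    intro z
    rw [← map_pow, ← sub_eq_zero, ← map_sub, IsLocalRing.residue_eq_zero_iff,
      ← ValuationSubring.coe_mem_nonunits_iff]
    exact mem_nonunits_of_mem hℓ Q hℓQ (hfrob z)
  have hcunit : IsLocalRing.residue A (ι c) ≠ 0 := by
    rw [Ne, IsLocalRing.residue_eq_zero_iff, ← ValuationSubring.coe_mem_nonunits_iff,
      ValuationSubring.mem_nonunits_iff_or]
    push Not
    refine ⟨?_, inv_mem_locVal hℓ Q hℓQ hc⟩
    intro h
    apply hc
    have : c = 0 := Subtype.ext h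
    rw [this]; exact Q.zero_mem
  have h1 : IsLocalRing.residue A (g • ι b) = IsLocalRing.residue A (g • ι c) * IsLocalRing.residue A (g • a) := by
    rw [hι_mul, smul_mul', map_mul]
  rw [hres b, hres c, hι_mul, map_mul, mul_pow] at h1
  have := mul_left_cancel₀ (pow_ne_zero ℓ hcunit) h1
  rw [map_pow]
  exact this.symm

end

theorem exists_isFrobeniusAt (ℓ : ℕ) (hℓ : ℓ.Prime) :
    ∃ (A : ValuationSubring (AlgebraicClosure ℚ))
      (σ : AlgebraicClosure ℚ ≃ₐ[ℚ] AlgebraicClosure ℚ),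
      A.LiesOverPrime ℓ ∧ A.IsFrobeniusAt σ ℓ := by
  obtain ⟨Q, hQ, hℓQ⟩ := exists_maximal_over ℓ hℓ
  haveI : Fact ℓ.Prime := ⟨hℓ⟩
  obtain ⟨σ, hσ, hfrob⟩ := exists_frob ℓ Q hℓQ
  exact ⟨locVal hℓ Q hℓQ, σ, liesOver_locVal hℓ Q hℓQ, isFrobeniusAt_locVal hℓ Q hℓQ hσ hfrob⟩

end Fermat.Agent.Lib.Helper6
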