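/-
S53: the tautological rigid lift of type `𝒟` over the residue field (input for `U` nonempty).
-/
import Mathlib
import Fermat.Agent.Lib.S53.Defs
import Fermat.Agent.Lib.Helper9.S53U
import Fermat.Agent.Lib.Helper6.S53Dict

set_option autoImplicit false
set_option linter.unusedSectionVars false
noncomputable section
namespace Fermat.Agent.Lib.Helper6
open Fermat.Agent.Lib.S53 IsLocalRing GaloisRep

section ResidueLift

variable {𝒪 : Type} [CommRing 𝒪] [IsLocalRing 𝒪]

instance isLocalHom_algebraMap_residueField : IsLocalHom (algebraMap 𝒪 (ResidueField 𝒪)) := by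
  rw [ResidueField.algebraMap_eq]
  infer_instance

theorem isArtinianTestAlgebra_residueField : IsArtinianTestAlgebra 𝒪 (ResidueField 𝒪) where
  isLocalHom := by
    rw [ResidueField.algebraMap_eq]
    infer_instance
  residue_surjective := by
    rw [ResidueField.algebraMap_eq]
    exact (residue_surjective).comp residue_surjective
  isArtinian := inferInstance

theorem residueMap_residueField_eq :
    ResidueField.map (algebraMap 𝒪 (ResidueField 𝒪)) = residue (ResidueField 𝒪) := by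
  ext x
  obtain ⟨o, rfl⟩ := residue_surjective x
  rw [ResidueField.map_residue, ResidueField.algebraMap_eq]

/-- the matrix representation of `ρbar` in the frame, over the residue field -/
def frameMatRep {ρbar : ResidualGaloisRep (ResidueField 𝒪)} (F : Frame 𝒪 ρbar) :
    MatRep (ResidueField 𝒪) :=
  ⟨matrixRepOfBasis (GaloisRepAdic.ofResidualGaloisRep ρbar) F.b,
    matCont_matrixRepOfBasis (GaloisRepAdic.ofResidualGaloisRep ρbar) F.b⟩

theorem frameMatRep_r {ρbar : ResidualGaloisRep (ResidueField 𝒪)} (F : Frame 𝒪 ρbar) (σ : GQ) :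
    (frameMatRep F).r σ = F.mat σ := rfl

theorem isRigid_frameMatRep {ρbar : ResidualGaloisRep (ResidueField 𝒪)} (F : Frame 𝒪 ρbar) :
    IsRigid F (frameMatRep F) where
  reduces := by
    intro σ a b
    rw [residueMap_residueField_eq, frameMatRep_r]
  col_zero := F.col_zero
  col_one := F.col_one
  entry := by
    rw [frameMatRep_r, ResidueField.algebraMap_eq, F.c_spec]
    rfl

theorem type_frameMatRep {ρbar : ResidualGaloisRep (ResidueField 𝒪)} (F : Frame 𝒪 ρbar)
    {𝒟 : ∀ ⦃A : Type⦄ [CommRing A] [IsLocalRing A] [Algebra 𝒪 A], GaloisRepAdic A → Prop}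
    (h𝒟 : IsDeformationCondition 𝒪 𝒟) (hbar : 𝒟 (GaloisRepAdic.ofResidualGaloisRep ρbar)) :
    𝒟 (frameMatRep F).toGaloisRepAdic :=
  h𝒟.of_isEquiv isArtinianTestAlgebra_residueField
    ⟨(equivOfBasis (GaloisRepAdic.ofResidualGaloisRep ρbar) F.b).symm⟩ hbar

end ResidueLift


section Exists

variable {𝒪 : Type} [CommRing 𝒪] [IsLocalRing 𝒪]

/-- there is a rigid lift of type `𝒟` over the residue field -/
theorem exists_rigid_residue {ρbar : ResidualGaloisRep (ResidueField 𝒪)} (F : Frame 𝒪 ρbar)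
    {𝒟 : ∀ ⦃A : Type⦄ [CommRing A] [IsLocalRing A] [Algebra 𝒪 A], GaloisRepAdic A → Prop}
    (h𝒟 : IsDeformationCondition 𝒪 𝒟) (hbar : 𝒟 (GaloisRepAdic.ofResidualGaloisRep ρbar)) :
    ∃ ρ : MatRep (ResidueField 𝒪), IsRigid F ρ ∧ 𝒟 ρ.toGaloisRepAdic :=
  ⟨frameMatRep F, isRigid_frameMatRep F, type_frameMatRep F h𝒟 hbar⟩

/-- **`U` is nonempty**. -/
theorem exists_inU [Finite (ResidueField 𝒪)] {ρbar : ResidualGaloisRep (ResidueField 𝒪)}
    (F : Frame 𝒪 ρbar)
    {𝒟 : ∀ ⦃A : Type⦄ [CommRing A] [IsLocalRing A] [Algebra 𝒪 A], GaloisRepAdic A → Prop}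
    (h𝒟 : IsDeformationCondition 𝒪 𝒟) (hbar : 𝒟 (GaloisRepAdic.ofResidualGaloisRep ρbar)) :
    ∃ I : Ideal (PolyRing 𝒪), InU F 𝒟 I :=
  ⟨_, ker_evalHom_inU h𝒟 isArtinianTestAlgebra_residueField (frameMatRep F)
    (isRigid_frameMatRep F) (type_frameMatRep F h𝒟 hbar)⟩

end Exists

end Fermat.Agent.Lib.Helper6
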