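/-
S53, step 3 (tangent bound).  Rigid uniqueness at the level of `MatRep`, functoriality of rigid
lifts, the dual numbers as an Artinian test algebra, and the bound on the number of tangent
vectors of a rigid pair of type `𝒟` coming from `TangentFinite`.
-/
import Mathlib
import Fermat.Agent.Lib.S53.Defs
import Fermat.Agent.Lib.S53.DualAlg
import Fermat.Agent.Lib.Helper7.NormalForm
import Fermat.Agent.Lib.Helper6.S53Dict

set_option autoImplicit false
set_option linter.unusedSectionVars false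

noncomputable section

namespace Fermat.Agent.Lib.Helper6

open Fermat.Agent.Lib.S53 IsLocalRing GaloisRep

section Rigid

variable {𝒪 : Type} [CommRing 𝒪] [IsLocalRing 𝒪]
variable {A : Type} [CommRing A] [IsLocalRing A] [Algebra 𝒪 A] [IsLocalHom (algebraMap 𝒪 A)]
variable {ρbar : ResidualGaloisRep (ResidueField 𝒪)}

/-- two matrix representations reducing to `ρbar` are entrywise congruent modulo `𝔪` -/
theorem reducesTo_sub_mem (F : Frame 𝒪 ρbar) {ρ ρ' : MatRep A} (h : ReducesTo F ρ)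
    (h' : ReducesTo F ρ') (σ : GQ) (a b : Fin 2) :
    ρ.r σ a b - ρ'.r σ a b ∈ maximalIdeal A := by
  rw [← residue_eq_zero_iff, map_sub, h σ a b, h' σ a b, sub_self]

/-- the commutator entry of a lift of `ρbar` in the frame is a unit -/
theorem isUnit_comm_entry (F : Frame 𝒪 ρbar) {ρ : MatRep A} (h : ReducesTo F ρ) :
    IsUnit ((ρ.r F.g₀ * ρ.r F.g₁ - ρ.r F.g₁ * ρ.r F.g₀) F.i F.j) := by
  rw [← not_not (a := IsUnit _), ← mem_nonunits_iff, ← mem_maximalIdeal, ← residue_eq_zero_iff]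
  have key : residue A ((ρ.r F.g₀ * ρ.r F.g₁ - ρ.r F.g₁ * ρ.r F.g₀) F.i F.j) =
      ResidueField.map (algebraMap 𝒪 A)
        ((F.mat F.g₀ * F.mat F.g₁ - F.mat F.g₁ * F.mat F.g₀) F.i F.j) := by
    simp only [Matrix.sub_apply, Matrix.mul_apply, Fin.sum_univ_two, map_sub, map_add, map_mul,
      h _ _ _]
  rw [key]
  intro h0
  exact F.comm_ne ((map_eq_zero _).mp h0)

/-- An intertwiner between two rigid lifts is a unit scalar modulo the maximal ideal:
its `(1,0)` entry is in `𝔪` and its `(0,0)` entry is a unit. -/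
theorem intertwiner_shape (F : Frame 𝒪 ρbar) {ρ ρ' : MatRep A} (h : IsRigid F ρ)
    (h' : IsRigid F ρ') (Q : (Matrix (Fin 2) (Fin 2) A)ˣ)
    (hQ : ∀ σ, (Q : Matrix (Fin 2) (Fin 2) A) * ρ'.r σ = ρ.r σ * Q) :
    IsUnit ((Q : Matrix (Fin 2) (Fin 2) A) 0 0) ∧
      (Q : Matrix (Fin 2) (Fin 2) A) 1 0 ∈ maximalIdeal A := by
  set q : Matrix (Fin 2) (Fin 2) A := (Q : Matrix (Fin 2) (Fin 2) A) with hq
  set M := ρ.r F.g₀ with hM
  set N := ρ.r F.g₁ with hN
  set M' := ρ'.r F.g₀ with hM'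
  set N' := ρ'.r F.g₁ with hN'
  have e0 := hQ F.g₀
  have e1 := hQ F.g₁
  have c0 := congrFun (congrFun e0 0) 0
  have c1 := congrFun (congrFun e0 1) 0
  simp only [Matrix.mul_apply, Fin.sum_univ_two, ← hM, ← hM'] at c0 c1
  rw [show M' 0 0 = 0 from h'.col_zero, show M' 1 0 = 1 from h'.col_one] at c0 c1
  rw [show M 0 0 = 0 from h.col_zero] at c0
  rw [show M 1 0 = 1 from h.col_one] at c1
  simp only [mul_zero, mul_one, zero_add, zero_mul, one_mul] at c0 c1
  have hshape : q = q 0 0 • (1 : Matrix (Fin 2) (Fin 2) A) + q 1 0 • M := by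
    ext i j
    fin_cases i <;> fin_cases j
    · simp [show M 0 0 = 0 from h.col_zero]
    · simp [c0, mul_comm]
    · simp [show M 1 0 = 1 from h.col_one]
    · simp [c1, mul_comm]
  have hNN : ∀ a b, N' a b - N a b ∈ maximalIdeal A := fun a b =>
    reducesTo_sub_mem F h'.reduces h.reduces F.g₁ a b
  have hb : q 1 0 ∈ maximalIdeal A := by
    have hu := isUnit_comm_entry F h.reduces
    rw [← hM, ← hN] at hu
    have e2 : q 0 0 • (N' - N) + q 1 0 • (M * (N' - N)) + q 1 0 • (M * N - N * M) = 0 := by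
      have : q * N' - N * q = 0 := sub_eq_zero.mpr e1
      rw [hshape] at this
      rw [← this]
      simp only [add_mul, mul_add, smul_mul_assoc, mul_smul_comm, one_mul, mul_one, mul_sub,
        smul_sub]
      abel
    have e3 := congrFun (congrFun e2 F.i) F.j
    simp only [Matrix.add_apply, Matrix.smul_apply, smul_eq_mul, Matrix.zero_apply] at e3
    have m1 : q 0 0 * (N' - N) F.i F.j ∈ maximalIdeal A :=
      Ideal.mul_mem_left _ _ (by rw [Matrix.sub_apply]; exact hNN _ _)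
    have m2 : q 1 0 * (M * (N' - N)) F.i F.j ∈ maximalIdeal A := by
      refine Ideal.mul_mem_left _ _ ?_
      rw [Matrix.mul_apply]
      exact Ideal.sum_mem _ fun l _ => Ideal.mul_mem_left _ _
        (by rw [Matrix.sub_apply]; exact hNN _ _)
    have m3 : q 1 0 * (M * N - N * M) F.i F.j ∈ maximalIdeal A := by
      have : q 1 0 * (M * N - N * M) F.i F.j =
          -(q 0 0 * (N' - N) F.i F.j + q 1 0 * (M * (N' - N)) F.i F.j) := by
        linear_combination e3
      rw [this]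
      exact Ideal.neg_mem_iff _ |>.mpr (Ideal.add_mem _ m1 m2)
    rcases (Ideal.IsPrime.mem_or_mem inferInstance m3) with h1 | h1
    · exact h1
    · exact absurd hu ((mem_maximalIdeal _).mp h1)
  refine ⟨?_, hb⟩
  have hdet : IsUnit q.det := (Matrix.isUnit_iff_isUnit_det q).mp Q.isUnit
  rw [Matrix.det_fin_two] at hdet
  by_contra hnu
  have ha : q 0 0 ∈ maximalIdeal A := (mem_maximalIdeal _).mpr hnu
  have : q 0 0 * q 1 1 - q 0 1 * q 1 0 ∈ maximalIdeal A :=
    Ideal.sub_mem _ (Ideal.mul_mem_right _ _ ha) (Ideal.mul_mem_left _ _ hb)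
  exact (mem_maximalIdeal _).mp this hdet

/-- **Rigid uniqueness, intertwiner form**: an invertible intertwiner between rigid lifts forces
them to be equal and is a scalar matrix. -/
theorem rigid_unique_of_intertwiner (F : Frame 𝒪 ρbar) {ρ ρ' : MatRep A} (h : IsRigid F ρ)
    (h' : IsRigid F ρ') (Q : (Matrix (Fin 2) (Fin 2) A)ˣ)
    (hQ : ∀ σ, (Q : Matrix (Fin 2) (Fin 2) A) * ρ'.r σ = ρ.r σ * Q) :
    ρ' = ρ ∧ (Q : Matrix (Fin 2) (Fin 2) A) =
      (Q : Matrix (Fin 2) (Fin 2) A) 0 0 • (1 : Matrix (Fin 2) (Fin 2) A) := by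
  obtain ⟨hu, hm⟩ := intertwiner_shape F h h' Q hQ
  have := Fermat.Agent.Lib.Helper7.nf_unique ρ.r ρ'.r F.g₀ F.g₁ F.i F.j (algebraMap 𝒪 A F.c)
    ⟨h.col_zero, h.col_one, h.entry⟩ ⟨h'.col_zero, h'.col_one, h'.entry⟩
    (isUnit_comm_entry F h.reduces) Q hQ hu hm
  exact ⟨MatRep.ext fun σ => by rw [this.1], this.2⟩

/-- **Rigid uniqueness**: equivalent rigid lifts are equal. -/
theorem rigid_unique (F : Frame 𝒪 ρbar) {ρ ρ' : MatRep A} (h : IsRigid F ρ)
    (h' : IsRigid F ρ') (e : ρ.toGaloisRepAdic.IsEquiv ρ'.toGaloisRepAdic) : ρ = ρ' := by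
  obtain ⟨g, hg⟩ := (dict_isEquiv_iff ρ ρ').mp e
  exact (rigid_unique_of_intertwiner F h' h g hg).1

end Rigid

section Map

variable {𝒪 : Type} [CommRing 𝒪] [IsLocalRing 𝒪]
variable {A : Type} [CommRing A] [IsLocalRing A] [Algebra 𝒪 A] [IsLocalHom (algebraMap 𝒪 A)]
variable {B : Type} [CommRing B] [IsLocalRing B] [Algebra 𝒪 B] [IsLocalHom (algebraMap 𝒪 B)]
variable {ρbar : ResidualGaloisRep (ResidueField 𝒪)}

theorem reducesTo_map (F : Frame 𝒪 ρbar) (φ : A →ₐ[𝒪] B) (hφ : IsLocalHom (φ : A →+* B))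
    {ρ : MatRep A} (h : ReducesTo F ρ) : ReducesTo F (ρ.map (φ : A →+* B) hφ) := by
  intro σ a b
  rw [MatRep.map_r_apply]
  have h1 : residue B ((φ : A →+* B) (ρ.r σ a b)) =
      ResidueField.map (φ : A →+* B) (residue A (ρ.r σ a b)) := by
    rw [ResidueField.map_residue]
  rw [h1, h σ a b]
  have h2 : (ResidueField.map (φ : A →+* B)).comp (ResidueField.map (algebraMap 𝒪 A)) =
      ResidueField.map (algebraMap 𝒪 B) := by
    rw [← ResidueField.map_comp]
    congr 1
    exact φ.comp_algebraMap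
  exact RingHom.congr_fun h2 _

theorem isRigid_map (F : Frame 𝒪 ρbar) (φ : A →ₐ[𝒪] B) (hφ : IsLocalHom (φ : A →+* B))
    {ρ : MatRep A} (h : IsRigid F ρ) : IsRigid F (ρ.map (φ : A →+* B) hφ) where
  reduces := reducesTo_map F φ hφ h.reduces
  col_zero := by rw [MatRep.map_r_apply, h.col_zero, map_zero]
  col_one := by rw [MatRep.map_r_apply, h.col_one, map_one]
  entry := by
    rw [MatRep.map_r_apply, h.entry]
    exact φ.commutes F.c

omit [IsLocalHom (algebraMap 𝒪 A)] [IsLocalHom (algebraMap 𝒪 B)] in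
/-- an algebra hom of local `𝒪`-algebras whose target has the residue field of `𝒪` is local -/
theorem isLocalHom_of_residue_surjective
    (hB : Function.Surjective (residue B ∘ algebraMap 𝒪 B)) (φ : A →ₐ[𝒪] B) :
    IsLocalHom (φ : A →+* B) := by
  let ψ : A →+* ResidueField B := (residue B).comp (φ : A →+* B)
  have hψ : Function.Surjective ψ := by
    intro x
    obtain ⟨o, ho⟩ := hB x
    refine ⟨algebraMap 𝒪 A o, ?_⟩
    show residue B (φ (algebraMap 𝒪 A o)) = x
    rw [φ.commutes]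
    exact ho
  have hmax : (RingHom.ker ψ).IsMaximal := RingHom.ker_isMaximal_of_surjective ψ hψ
  have hker : RingHom.ker ψ = maximalIdeal A := eq_maximalIdeal hmax
  refine ⟨fun a ha => ?_⟩
  by_contra hnu
  have h1 : a ∈ RingHom.ker ψ := by rw [hker]; exact (mem_maximalIdeal a).mpr hnu
  have h2 : residue B (φ a) = 0 := h1
  rw [residue_eq_zero_iff] at h2
  exact (mem_maximalIdeal _).mp h2 ha

/-- type `𝒟` is preserved under pushing forward a matrix representation along a map of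
Artinian test algebras -/
theorem type_map {𝒟 : ∀ ⦃A : Type⦄ [CommRing A] [IsLocalRing A] [Algebra 𝒪 A],
      GaloisRepAdic A → Prop} (h𝒟 : IsDeformationCondition 𝒪 𝒟)
    (hA : IsArtinianTestAlgebra 𝒪 A) (hB : IsArtinianTestAlgebra 𝒪 B)
    (φ : A →ₐ[𝒪] B) (hφ : IsLocalHom (φ : A →+* B)) {ρ : MatRep A}
    (h : 𝒟 ρ.toGaloisRepAdic) : 𝒟 (ρ.map (φ : A →+* B) hφ).toGaloisRepAdic :=
  h𝒟.of_isEquiv hB (dict_isEquiv_baseChange (φ : A →+* B) hφ ρ)
    (h𝒟.baseChangeAlong hA hB φ hφ h)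

end Map

section Dual

variable (𝒪 : Type) [CommRing 𝒪] [IsLocalRing 𝒪]

attribute [local instance 10000] dualAlg

attribute [local instance] isLocalHom_dualAlg

variable {𝒪}

theorem residueMap_dual_eq :
    ResidueField.map (algebraMap 𝒪 (DualNumber (ResidueField 𝒪))) =
      (residue (DualNumber (ResidueField 𝒪))).comp
        (algebraMap (ResidueField 𝒪) (DualNumber (ResidueField 𝒪))) := by
  ext x
  obtain ⟨o, rfl⟩ := residue_surjective x
  rw [ResidueField.map_residue]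
  rfl

theorem residual_isEquiv_dual {ρbar : ResidualGaloisRep (ResidueField 𝒪)} (F : Frame 𝒪 ρbar)
    (ρ : MatRep (DualNumber (ResidueField 𝒪))) (h : ReducesTo F ρ) :
    letI : Algebra (ResidueField 𝒪) (ResidueField (DualNumber (ResidueField 𝒪))) :=
      ((IsLocalRing.residue (DualNumber (ResidueField 𝒪))).comp
        (algebraMap (ResidueField 𝒪) (DualNumber (ResidueField 𝒪)))).toAlgebra
    ρ.toGaloisRepAdic.residual.IsEquiv
      (ρbar.baseChange (ResidueField (DualNumber (ResidueField 𝒪)))) := by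
  have h1 := dict_residual_isEquiv F ρ h
  rw [residueMap_dual_eq] at h1
  exact h1

/-- abstract counting principle behind the tangent bound -/
theorem exists_bound_of_finite_quotient {X : Type*} (S : Setoid X) (hfin : Finite (Quotient S)) :
    ∃ N : ℕ, ∀ {ι : Type} (f : ι → X), (∀ i j, S.r (f i) (f j) → i = j) →
      Finite ι ∧ Nat.card ι ≤ N := by
  refine ⟨Nat.card (Quotient S), fun {ι} f hf => ?_⟩
  have hinj : Function.Injective (fun i => (Quotient.mk S (f i))) := by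
    intro i j hij
    exact hf i j (Quotient.exact hij)
  exact ⟨Finite.of_injective _ hinj, Nat.card_le_card_of_injective _ hinj⟩

/-- **T-FINITE**: the set of rigid lifts of type `𝒟` over the dual numbers is finite. -/
theorem finite_rigidDual {ρbar : ResidualGaloisRep (ResidueField 𝒪)} (F : Frame 𝒪 ρbar)
    {𝒟 : ∀ ⦃A : Type⦄ [CommRing A] [IsLocalRing A] [Algebra 𝒪 A], GaloisRepAdic A → Prop}
    (_habs : ρbar.IsAbsolutelyIrreducible) (hfin : TangentFinite 𝒪 ρbar 𝒟) :
    Finite (RigidDual F 𝒟) := by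
  unfold TangentFinite at hfin
  obtain ⟨N, hN⟩ := exists_bound_of_finite_quotient _ hfin
  refine (hN (fun t : RigidDual F 𝒟 =>
      ⟨t.1.toGaloisRepAdic, t.2.2, residual_isEquiv_dual F t.1 t.2.1.reduces⟩) ?_).1
  intro t t' he
  exact Subtype.ext (rigid_unique F t.2.1 t'.2.1 he)

/-- **Tangent bound**: there is a uniform bound on the number of `𝒪`-algebra homomorphisms to
the dual numbers from an Artinian test algebra generated by the entries of a rigid lift of
type `𝒟`. -/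
theorem tangent_card_le {ρbar : ResidualGaloisRep (ResidueField 𝒪)} (F : Frame 𝒪 ρbar)
    {𝒟 : ∀ ⦃A : Type⦄ [CommRing A] [IsLocalRing A] [Algebra 𝒪 A], GaloisRepAdic A → Prop}
    (h𝒟 : IsDeformationCondition 𝒪 𝒟) (hfin : TangentFinite 𝒪 ρbar 𝒟) :
    ∃ N : ℕ, ∀ {A : Type} [CommRing A] [IsLocalRing A] [Algebra 𝒪 A]
      [IsLocalHom (algebraMap 𝒪 A)], IsArtinianTestAlgebra 𝒪 A → ∀ ρ : MatRep A,
      IsRigid F ρ → 𝒟 ρ.toGaloisRepAdic →
      Algebra.adjoin 𝒪 (Set.range fun x : GQ × Fin 2 × Fin 2 => ρ.r x.1 x.2.1 x.2.2) = ⊤ →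
      Finite (A →ₐ[𝒪] DualNumber (ResidueField 𝒪)) ∧
        Nat.card (A →ₐ[𝒪] DualNumber (ResidueField 𝒪)) ≤ N := by
  unfold TangentFinite at hfin
  obtain ⟨N, hN⟩ := exists_bound_of_finite_quotient _ hfin
  refine ⟨N, fun {A} _ _ _ _ hA ρ hr hD hgen => ?_⟩
  have hloc : ∀ φ : A →ₐ[𝒪] DualNumber (ResidueField 𝒪),
      IsLocalHom (φ : A →+* DualNumber (ResidueField 𝒪)) :=
    fun φ => isLocalHom_of_residue_surjective (residue_dualNumber_surjective 𝒪) φ
  refine hN (fun φ : A →ₐ[𝒪] DualNumber (ResidueField 𝒪) =>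
      ⟨(ρ.map (φ : A →+* DualNumber (ResidueField 𝒪)) (hloc φ)).toGaloisRepAdic,
        type_map h𝒟 hA (isArtinianTestAlgebra_dualNumber 𝒪) φ (hloc φ) hD,
        residual_isEquiv_dual F _ (reducesTo_map F φ (hloc φ) hr.reduces)⟩) ?_
  intro φ φ' he
  have h1 := rigid_unique F (isRigid_map F φ (hloc φ) hr) (isRigid_map F φ' (hloc φ') hr) he
  refine AlgHom.ext_of_adjoin_eq_top hgen ?_
  rintro _ ⟨x, rfl⟩
  have h2 := congrArg (fun ρ' : MatRep (DualNumber (ResidueField 𝒪)) => ρ'.r x.1 x.2.1 x.2.2) h1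
  simpa using h2

end Dual

end Fermat.Agent.Lib.Helper6
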